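/-
P-DS / P-ES1, row 574 ES1-DIAM (helper80), part 1: the analytic core.

Every polynomial relation over `ℚ` between the generators `j(q^d)` (`d ∣ M`) and `v_a`
(`a ∈ (ℤ/M)ˣ`) of the function field of `X₁(M)` persists when the `v_a` are replaced by `v_{u a}`.
-/
import Fermat.Agent.H29.ES1.Interfaces
import Fermat.Agent.H29.ES1.GenInterfaces
import Fermat.Agent.H44.Gen11.Bridge
import Fermat.Agent.H82.Separation

set_option autoImplicit false
set_option linter.unusedSectionVars false

noncomputable section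

open UpperHalfPlane ModularCurve CongruenceSubgroup
open scoped MatrixGroups

namespace Fermat.Agent.H80.ES1

open Fermat.Agent.H29.ES1 Fermat.Agent.H44 Fermat.Agent.H23

variable (M : ℕ) [NeZero M]

/-- The index type of the generators of `F1 M`. -/
abbrev GenIdx : Type := {d : ℕ // d ∣ M} ⊕ (ZMod M)ˣ

theorem neZero_of_dvd_level {d : ℕ} (hd : d ∣ M) : NeZero d :=
  ⟨ne_zero_of_dvd_ne_zero (NeZero.ne M) hd⟩

/-- The generators of `F1 M` as Laurent series over `ℚ`. -/
def gensQ : GenIdx M → LaurentSeries ℚ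
  | Sum.inl d => haveI := neZero_of_dvd_level M d.2; qExpand ℚ d.1 jq
  | Sum.inr a => vGen M (a : ZMod M)

/-- The holomorphic functions representing the generators. -/
def gensFun : GenIdx M → (ℍ → ℂ)
  | Sum.inl d => haveI := neZero_of_dvd_level M d.2; fun z => jfun (scaleH d.1 z)
  | Sum.inr a => VFun M (a : ZMod M)

/-- The permutation of the generators attached to a unit `u`. -/
def genPerm (u : (ZMod M)ˣ) : GenIdx M → GenIdx M
  | Sum.inl d => Sum.inl d
  | Sum.inr a => Sum.inr (u * a)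

@[simp] theorem genPerm_inl (u : (ZMod M)ˣ) (d : {d : ℕ // d ∣ M}) :
    genPerm M u (Sum.inl d) = Sum.inl d := rfl

@[simp] theorem genPerm_inr (u a : (ZMod M)ˣ) :
    genPerm M u (Sum.inr a) = Sum.inr (u * a) := rfl

theorem genPerm_one : genPerm M 1 = id := by
  funext i
  cases i <;> simp

theorem genPerm_mul (u v : (ZMod M)ˣ) : genPerm M (u * v) = genPerm M u ∘ genPerm M v := by
  funext i
  cases i <;> simp [mul_assoc]

theorem range_gensQ : Set.range (gensQ M) = divisorExpansions M ∪ vGenSet M := by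
  ext x
  constructor
  · rintro ⟨i, rfl⟩
    cases i with
    | inl d => exact Or.inl ⟨d.1, neZero_of_dvd_level M d.2, d.2, rfl⟩
    | inr a => exact Or.inr ⟨a, rfl⟩
  · rintro (⟨d, hd, hdM, rfl⟩ | ⟨a, rfl⟩)
    · exact ⟨Sum.inl ⟨d, hdM⟩, rfl⟩
    · exact ⟨Sum.inr a, rfl⟩

/-! ### The generators are represented by functions -/

theorem coeffEmb_qExpand_jq (d : ℕ) [NeZero d] :
    coeffEmb ℂ (qExpand ℚ d jq) = qExpand ℂ d (jqModC ℂ) := by
  rw [coeffEmb, coeffMap_qExpand]
  congr 1
  rw [← jqModC_rat]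
  exact map_jqModC _

theorem unit_ne_zero (hM : 3 ≤ M) (a : (ZMod M)ˣ) : (a : ZMod M) ≠ 0 := by
  have : Fact (1 < M) := ⟨by omega⟩
  exact a.ne_zero

theorem laurentRel_gens (hV : VFunStatement) (hM : 3 ≤ M) (i : GenIdx M) :
    LaurentRel (gensFun M i) (coeffEmb ℂ (gensQ M i)) := by
  cases i with
  | inl d =>
    have := neZero_of_dvd_level M d.2
    show LaurentRel (fun z => jfun (scaleH d.1 z)) (coeffEmb ℂ (qExpand ℚ d.1 jq))
    rw [coeffEmb_qExpand_jq]
    exact laurentRel_jfun_scale d.1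
  | inr a => exact (hV M (a : ZMod M) (unit_ne_zero M hM a)).2.1

/-- For every unit `u` there is an element of `Γ₀(M)` with upper left entry `u`. -/
theorem exists_Gamma0_upperLeft (u : (ZMod M)ˣ) :
    ∃ γ : SL(2, ℤ), γ ∈ Gamma0 M ∧
      (((γ : Matrix (Fin 2) (Fin 2) ℤ) 0 0 : ℤ) : ZMod M) = (u : ZMod M) := by
  have hcop : Nat.Coprime (u : ZMod M).val M := ZMod.val_coe_unit_coprime u
  have hcop' : IsCoprime (((u : ZMod M).val : ℕ) : ℤ) (M : ℤ) := Nat.isCoprime_iff_coprime.mpr hcop
  obtain ⟨a, b, hab⟩ := hcop'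
  have hdet : (!![(((u : ZMod M).val : ℕ) : ℤ), -b; (M : ℤ), a] :
      Matrix (Fin 2) (Fin 2) ℤ).det = 1 := by
    rw [Matrix.det_fin_two_of]
    linear_combination hab
  let γ : SL(2, ℤ) := ⟨!![(((u : ZMod M).val : ℕ) : ℤ), -b; (M : ℤ), a], hdet⟩
  refine ⟨γ, ?_, ?_⟩
  · rw [Gamma0_mem]
    show (((M : ℤ)) : ZMod M) = 0
    simp
  · show (((((u : ZMod M).val : ℕ) : ℤ)) : ZMod M) = (u : ZMod M)
    simp

/-- The generators are permuted by a suitable element of `Γ₀(M)`. -/
theorem exists_gamma_perm (hV : VFunStatement) (hM : 3 ≤ M) (u : (ZMod M)ˣ) :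
    ∃ γ : SL(2, ℤ), ∀ (i : GenIdx M) (z : ℍ),
      gensFun M i (γ • z) = gensFun M (genPerm M u i) z := by
  obtain ⟨γ, hγ, hu⟩ := exists_Gamma0_upperLeft M u
  refine ⟨γ, fun i z => ?_⟩
  cases i with
  | inl d =>
    have := neZero_of_dvd_level M d.2
    exact Fermat.Agent.H82.sep_jfun_scaleH_smul M d.1 d.2 γ hγ z
  | inr a =>
    show VFun M (a : ZMod M) (γ • z) = VFun M ((u * a : (ZMod M)ˣ) : ZMod M) z
    rw [(hV M (a : ZMod M) (unit_ne_zero M hM a)).2.2.1 γ hγ z, hu, Units.val_mul]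

/-! ### Polynomial relations -/

/-- Precomposition with a self-map of `ℍ`, as a `ℚ`-algebra homomorphism. -/
def precompHom (g : ℍ → ℍ) : (ℍ → ℂ) →ₐ[ℚ] (ℍ → ℂ) :=
  RingHom.toRatAlgHom
    { toFun := fun f => f ∘ g
      map_one' := rfl
      map_mul' := fun _ _ => rfl
      map_zero' := rfl
      map_add' := fun _ _ => rfl }

@[simp] theorem precompHom_apply (g : ℍ → ℍ) (f : ℍ → ℂ) : precompHom g f = f ∘ g := rfl

/-- The coefficientwise embedding as a `ℚ`-algebra homomorphism. -/
def coeffEmbA (L : Type*) [Field L] [Algebra ℚ L] : LaurentSeries ℚ →ₐ[ℚ] LaurentSeries L :=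
  RingHom.toRatAlgHom (coeffEmb L)

@[simp] theorem coeffEmbA_apply (L : Type*) [Field L] [Algebra ℚ L] (x : LaurentSeries ℚ) :
    coeffEmbA L x = coeffEmb L x := rfl

theorem coeffEmb_injective (L : Type*) [Field L] [Algebra ℚ L] :
    Function.Injective (coeffEmb L) := (coeffEmb L).injective

theorem algebraMap_fun_eq (c : ℚ) : algebraMap ℚ (ℍ → ℂ) c = fun _ => (algebraMap ℚ ℂ c) := rfl

theorem algebraMap_laurent_eq (c : ℚ) :
    algebraMap ℚ (LaurentSeries ℂ) c = HahnSeries.C (algebraMap ℚ ℂ c) :=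
  RingHom.congr_fun (RingHom.ext_rat (algebraMap ℚ (LaurentSeries ℂ))
    ((HahnSeries.C : ℂ →+* LaurentSeries ℂ).comp (algebraMap ℚ ℂ))) c

/-- A polynomial in functions with Laurent expansions has the corresponding Laurent expansion. -/
theorem laurentRel_aeval {ι : Type*} (h : ι → (ℍ → ℂ)) (x : ι → LaurentSeries ℂ)
    (hx : ∀ i, LaurentRel (h i) (x i)) (P : MvPolynomial ι ℚ) :
    LaurentRel (MvPolynomial.aeval h P) (MvPolynomial.aeval x P) := by
  induction P using MvPolynomial.induction_on with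
  | C c =>
    rw [MvPolynomial.aeval_C, MvPolynomial.aeval_C, algebraMap_fun_eq, algebraMap_laurent_eq]
    exact laurentRel_const _
  | add p q hp hq =>
    rw [map_add, map_add]
    exact hp.add hq
  | mul_X p i hp =>
    rw [map_mul, map_mul, MvPolynomial.aeval_X, MvPolynomial.aeval_X]
    exact hp.mul (hx i)

/-- **Analytic core.**  Polynomial relations over `ℚ` between the generators are stable under
the diamond permutations. -/
theorem core_rat (hV : VFunStatement) (hM : 3 ≤ M) (u : (ZMod M)ˣ) (P : MvPolynomial (GenIdx M) ℚ)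
    (hP : MvPolynomial.aeval (gensQ M) P = 0) :
    MvPolynomial.aeval (gensQ M ∘ genPerm M u) P = 0 := by
  -- to `ℂ`
  have hC : MvPolynomial.aeval (fun i => coeffEmb ℂ (gensQ M i)) P = 0 := by
    have := congrArg (coeffEmbA ℂ) hP
    rw [map_zero, ← AlgHom.comp_apply, MvPolynomial.comp_aeval] at this
    exact this
  -- the function vanishes
  have hrel := laurentRel_aeval (gensFun M) (fun i => coeffEmb ℂ (gensQ M i))
    (laurentRel_gens M hV hM) P
  rw [hC] at hrel
  have hfun : MvPolynomial.aeval (gensFun M) P = 0 := hrel.unique_left laurentRel_zero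
  -- compose with `γ`
  obtain ⟨γ, hγ⟩ := exists_gamma_perm M hV hM u
  have hfun' : MvPolynomial.aeval (gensFun M ∘ genPerm M u) P = 0 := by
    have := congrArg (precompHom (fun z => γ • z)) hfun
    rw [map_zero, ← AlgHom.comp_apply, MvPolynomial.comp_aeval] at this
    have hgen : (fun i => precompHom (fun z => γ • z) (gensFun M i)) =
        gensFun M ∘ genPerm M u := by
      funext i z
      exact hγ i z
    rw [hgen] at this
    exact this
  -- back to Laurent series
  have hrel' := laurentRel_aeval (gensFun M ∘ genPerm M u)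
    (fun i => coeffEmb ℂ (gensQ M (genPerm M u i)))
    (fun i => laurentRel_gens M hV hM (genPerm M u i)) P
  rw [hfun'] at hrel'
  have hC' : MvPolynomial.aeval (fun i => coeffEmb ℂ (gensQ M (genPerm M u i))) P = 0 :=
    hrel'.unique_right laurentRel_zero
  apply coeffEmb_injective ℂ
  rw [map_zero]
  have := MvPolynomial.comp_aeval (R := ℚ) (f := gensQ M ∘ genPerm M u) (coeffEmbA ℂ)
  have h2 := congrArg (fun φ => φ P) this
  simp only [AlgHom.comp_apply, coeffEmbA_apply] at h2
  rw [h2]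
  exact hC'

end Fermat.Agent.H80.ES1

end
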