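/-
P-DS / P-ES1, row 574 ES1-DIAM (helper80), part 2: linear disjointness.

Polynomial relations with coefficients in an arbitrary field `L ⊇ ℚ` between the generators are
stable under the diamond permutations.
-/
import Fermat.Agent.H80.ES1.DiamondCore

set_option autoImplicit false
set_option linter.unusedSectionVars false

noncomputable section

open UpperHalfPlane ModularCurve CongruenceSubgroup
open scoped MatrixGroups

namespace Fermat.Agent.H80.ES1

open Fermat.Agent.H29.ES1

variable (L : Type) [Field L] [Algebra ℚ L]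

theorem coeff_algebraMap_mul_coeffEmb (c : L) (Y : LaurentSeries ℚ) (n : ℤ) :
    (algebraMap L (LaurentSeries L) c * coeffEmb L Y).coeff n = (Y.coeff n) • c := by
  rw [algebraMap_laurentSeries_eq_single, HahnSeries.coeff_single_zero_mul, coeffEmb_coeff,
    Algebra.smul_def, mul_comm]

theorem coeff_algebraMap_mul_rat (c : ℚ) (Y : LaurentSeries ℚ) (n : ℤ) :
    (algebraMap ℚ (LaurentSeries ℚ) c * Y).coeff n = c * Y.coeff n := by
  rw [algebraMap_laurentSeries_eq_single, HahnSeries.coeff_single_zero_mul]

/-- Coordinates of a polynomial relation: for every `ℚ`-linear functional `φ` on `L` and every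
polynomial `P` over `L` there is a polynomial `P_φ` over `ℚ` computing `φ` of the coefficients of
`P(y)` for ALL tuples `y` of rational Laurent series. -/
theorem exists_coord_poly {ι : Type*} (φ : L →ₗ[ℚ] ℚ) (P : MvPolynomial ι L) :
    ∃ Q : MvPolynomial ι ℚ, ∀ (y : ι → LaurentSeries ℚ) (n : ℤ),
      φ ((MvPolynomial.aeval (fun i => coeffEmb L (y i)) P).coeff n)
        = (MvPolynomial.aeval y Q).coeff n := by
  induction P using MvPolynomial.induction_on' with
  | monomial m c =>
    refine ⟨MvPolynomial.monomial m (φ c), fun y n => ?_⟩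
    rw [MvPolynomial.aeval_monomial, MvPolynomial.aeval_monomial]
    have h1 : (m.prod fun i k => (coeffEmb L (y i)) ^ k)
        = coeffEmb L (m.prod fun i k => (y i) ^ k) := by
      rw [Finsupp.prod, Finsupp.prod, map_prod]
      simp only [map_pow]
    rw [h1, coeff_algebraMap_mul_coeffEmb, coeff_algebraMap_mul_rat, map_smul, smul_eq_mul,
      mul_comm]
  | add p q hp hq =>
    obtain ⟨Qp, hQp⟩ := hp
    obtain ⟨Qq, hQq⟩ := hq
    refine ⟨Qp + Qq, fun y n => ?_⟩
    rw [map_add, map_add, HahnSeries.coeff_add, HahnSeries.coeff_add, map_add, hQp, hQq]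

/-- The generators over `L`. -/
def gensL (M : ℕ) [NeZero M] : GenIdx M → LaurentSeries L := fun i => coeffEmb L (gensQ M i)

/-- **Core over `L`.** -/
theorem core_field (M : ℕ) [NeZero M] (hV : VFunStatement) (hM : 3 ≤ M) (u : (ZMod M)ˣ)
    (P : MvPolynomial (GenIdx M) L) (hP : MvPolynomial.aeval (gensL L M) P = 0) :
    MvPolynomial.aeval (gensL L M ∘ genPerm M u) P = 0 := by
  let b := Module.Basis.ofVectorSpace ℚ L
  ext n
  rw [HahnSeries.coeff_zero]
  apply b.repr.injective
  rw [map_zero]
  ext k
  rw [Finsupp.zero_apply]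
  obtain ⟨Q, hQ⟩ := exists_coord_poly L (b.coord k) P
  have hQ0 : MvPolynomial.aeval (gensQ M) Q = 0 := by
    ext n'
    rw [← hQ (gensQ M) n']
    have : (MvPolynomial.aeval (fun i => coeffEmb L (gensQ M i)) P) = 0 := hP
    rw [this, HahnSeries.coeff_zero, HahnSeries.coeff_zero, map_zero]
  have hQ1 := core_rat M hV hM u Q hQ0
  have := hQ (gensQ M ∘ genPerm M u) n
  rw [hQ1, HahnSeries.coeff_zero] at this
  exact this

end Fermat.Agent.H80.ES1

end
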