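/-
P-DS / P-ES1, row 574 ES1-DIAM (helper80), part 3: the diamond automorphisms (construction).

-/
import Fermat.Agent.H80.ES1.DiamondLD

set_option autoImplicit false
set_option linter.unusedSectionVars false

noncomputable section

open UpperHalfPlane ModularCurve CongruenceSubgroup IntermediateField
open scoped MatrixGroups IntermediateField.algebraAdjoinAdjoin

namespace Fermat.Agent.H80.ES1

open Fermat.Agent.H29.ES1

variable (L : Type) [Field L] [Algebra ℚ L] (M : ℕ) [NeZero M]

/-- The set of generators over `L`. -/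
abbrev genSet : Set (LaurentSeries L) := Set.range (gensL L M)

/-- Evaluation of polynomials at the generators, onto the algebra they generate. -/
def evalGen : MvPolynomial (GenIdx M) L →ₐ[L] Algebra.adjoin L (genSet L M) :=
  (MvPolynomial.aeval (gensL L M)).codRestrict (Algebra.adjoin L (genSet L M))
    (fun P => by
      rw [Algebra.adjoin_range_eq_range_aeval]
      exact ⟨P, rfl⟩)

theorem coe_evalGen (P : MvPolynomial (GenIdx M) L) :
    ((evalGen L M P : Algebra.adjoin L (genSet L M)) : LaurentSeries L)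
      = MvPolynomial.aeval (gensL L M) P := rfl

theorem evalGen_surjective : Function.Surjective (evalGen L M) := by
  rintro ⟨a, ha⟩
  have ha' := ha
  rw [Algebra.adjoin_range_eq_range_aeval] at ha'
  obtain ⟨P, hP⟩ := ha'
  exact ⟨P, Subtype.ext hP⟩

theorem evalGen_eq_zero_iff (P : MvPolynomial (GenIdx M) L) :
    evalGen L M P = 0 ↔ MvPolynomial.aeval (gensL L M) P = 0 :=
  ⟨fun h => by
    have := congrArg Subtype.val h
    exact this, fun h => Subtype.ext h⟩

/-- The ideal of relations. -/
def relIdeal : Ideal (MvPolynomial (GenIdx M) L) := RingHom.ker (evalGen L M)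

theorem mem_relIdeal (P : MvPolynomial (GenIdx M) L) :
    P ∈ relIdeal L M ↔ MvPolynomial.aeval (gensL L M) P = 0 := by
  rw [relIdeal, RingHom.mem_ker]
  exact evalGen_eq_zero_iff L M P

theorem rename_mem_relIdeal (hV : VFunStatement) (hM : 3 ≤ M) (u : (ZMod M)ˣ)
    {P : MvPolynomial (GenIdx M) L} (hP : P ∈ relIdeal L M) :
    MvPolynomial.rename (genPerm M u) P ∈ relIdeal L M := by
  rw [mem_relIdeal] at hP ⊢
  rw [MvPolynomial.aeval_rename]
  exact core_field L M hV hM u P hP

/-- The quotient by the relations. -/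
abbrev RelQuot : Type := MvPolynomial (GenIdx M) L ⧸ relIdeal L M

/-- The endomorphism of the quotient induced by the permutation of the generators. -/
def quotHom (hV : VFunStatement) (hM : 3 ≤ M) (u : (ZMod M)ˣ) : RelQuot L M →ₐ[L] RelQuot L M :=
  Ideal.Quotient.liftₐ (relIdeal L M)
    ((Ideal.Quotient.mkₐ L (relIdeal L M)).comp (MvPolynomial.rename (genPerm M u)))
    (fun P hP => by
      rw [AlgHom.comp_apply, Ideal.Quotient.mkₐ_eq_mk, Ideal.Quotient.eq_zero_iff_mem]
      exact rename_mem_relIdeal L M hV hM u hP)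

theorem quotHom_mk (hV : VFunStatement) (hM : 3 ≤ M) (u : (ZMod M)ˣ)
    (P : MvPolynomial (GenIdx M) L) :
    quotHom L M hV hM u (Ideal.Quotient.mk (relIdeal L M) P)
      = Ideal.Quotient.mk (relIdeal L M) (MvPolynomial.rename (genPerm M u) P) := rfl

theorem quotHom_comp (hV : VFunStatement) (hM : 3 ≤ M) (u v : (ZMod M)ˣ) :
    (quotHom L M hV hM u).comp (quotHom L M hV hM v) = quotHom L M hV hM (u * v) := by
  apply Ideal.Quotient.algHom_ext
  apply MvPolynomial.algHom_ext
  intro i
  simp only [AlgHom.comp_apply, Ideal.Quotient.mkₐ_eq_mk, quotHom_mk, MvPolynomial.rename_X,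
    genPerm_mul, Function.comp_apply]

theorem quotHom_one (hV : VFunStatement) (hM : 3 ≤ M) :
    quotHom L M hV hM 1 = AlgHom.id L (RelQuot L M) := by
  apply Ideal.Quotient.algHom_ext
  apply MvPolynomial.algHom_ext
  intro i
  simp only [AlgHom.comp_apply, Ideal.Quotient.mkₐ_eq_mk, quotHom_mk, MvPolynomial.rename_X,
    genPerm_one, id_eq, AlgHom.id_apply]

/-- The automorphisms of the quotient. -/
def quotAut (hV : VFunStatement) (hM : 3 ≤ M) :
    (ZMod M)ˣ →* (RelQuot L M ≃ₐ[L] RelQuot L M) where
  toFun u := AlgEquiv.ofAlgHom (quotHom L M hV hM u) (quotHom L M hV hM u⁻¹)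
    (by rw [quotHom_comp, mul_inv_cancel, quotHom_one])
    (by rw [quotHom_comp, inv_mul_cancel, quotHom_one])
  map_one' := by
    ext x
    show quotHom L M hV hM 1 x = x
    rw [quotHom_one]
    rfl
  map_mul' u v := by
    ext x
    show quotHom L M hV hM (u * v) x = quotHom L M hV hM u (quotHom L M hV hM v x)
    rw [← quotHom_comp]
    rfl

theorem quotAut_apply (hV : VFunStatement) (hM : 3 ≤ M) (u : (ZMod M)ˣ) (x : RelQuot L M) :
    quotAut L M hV hM u x = quotHom L M hV hM u x := rfl

theorem quotAut_mk_X (hV : VFunStatement) (hM : 3 ≤ M) (u : (ZMod M)ˣ) (i : GenIdx M) :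
    quotAut L M hV hM u (Ideal.Quotient.mk (relIdeal L M) (MvPolynomial.X i))
      = Ideal.Quotient.mk (relIdeal L M) (MvPolynomial.X (genPerm M u i)) := by
  rw [quotAut_apply, quotHom_mk, MvPolynomial.rename_X]

/-- The quotient by the relations is the algebra generated by the generators. -/
def quotEquiv : RelQuot L M ≃ₐ[L] Algebra.adjoin L (genSet L M) :=
  Ideal.quotientKerAlgEquivOfSurjective (evalGen_surjective L M)

theorem quotEquiv_mk (P : MvPolynomial (GenIdx M) L) :
    quotEquiv L M (Ideal.Quotient.mk (relIdeal L M) P) = evalGen L M P := rfl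

/-- A generator as an element of the algebra generated by the generators. -/
def genA (i : GenIdx M) : Algebra.adjoin L (genSet L M) :=
  ⟨gensL L M i, Algebra.subset_adjoin ⟨i, rfl⟩⟩

theorem quotEquiv_mk_X (i : GenIdx M) :
    quotEquiv L M (Ideal.Quotient.mk (relIdeal L M) (MvPolynomial.X i)) = genA L M i := by
  rw [quotEquiv_mk]
  apply Subtype.ext
  rw [coe_evalGen, MvPolynomial.aeval_X]
  rfl

/-- The automorphisms of the algebra generated by the generators. -/
def algAut (hV : VFunStatement) (hM : 3 ≤ M) :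
    (ZMod M)ˣ →* (Algebra.adjoin L (genSet L M) ≃ₐ[L] Algebra.adjoin L (genSet L M)) :=
  (AlgEquiv.autCongr (quotEquiv L M)).toMonoidHom.comp (quotAut L M hV hM)

theorem algAut_genA (hV : VFunStatement) (hM : 3 ≤ M) (u : (ZMod M)ˣ) (i : GenIdx M) :
    algAut L M hV hM u (genA L M i) = genA L M (genPerm M u i) := by
  have h1 : (quotEquiv L M).symm (genA L M i)
      = Ideal.Quotient.mk (relIdeal L M) (MvPolynomial.X i) := by
    rw [AlgEquiv.symm_apply_eq, quotEquiv_mk_X]
  show quotEquiv L M (quotAut L M hV hM u ((quotEquiv L M).symm (genA L M i))) = _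
  rw [h1, quotAut_mk_X, quotEquiv_mk_X]

/-! ### The field level -/

/-- The field generated by the generators. -/
abbrev genField : IntermediateField L (LaurentSeries L) :=
  IntermediateField.adjoin L (genSet L M)

theorem gensQ_mem_F1 (i : GenIdx M) : gensQ M i ∈ F1 M := by
  rw [F1]
  refine IntermediateField.subset_adjoin ℚ _ ?_
  rw [← range_gensQ]
  exact ⟨i, rfl⟩

theorem coeffEmb_algebraMap_rat (c : ℚ) :
    coeffEmb L (algebraMap ℚ (LaurentSeries ℚ) c)
      = algebraMap L (LaurentSeries L) (algebraMap ℚ L c) := by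
  rw [algebraMap_laurentSeries_eq_single, algebraMap_laurentSeries_eq_single, coeffEmb,
    coeffMap_single]

theorem coeffEmb_mem_genField {x : LaurentSeries ℚ} (hx : x ∈ F1 M) :
    coeffEmb L x ∈ genField L M := by
  rw [F1] at hx
  induction hx using IntermediateField.adjoin_induction with
  | mem x hx =>
    rw [← range_gensQ] at hx
    obtain ⟨i, rfl⟩ := hx
    exact IntermediateField.subset_adjoin _ _ ⟨i, rfl⟩
  | algebraMap c =>
    rw [coeffEmb_algebraMap_rat]
    exact IntermediateField.algebraMap_mem _ _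
  | add x y _ _ hx hy => rw [map_add]; exact add_mem hx hy
  | inv x _ hx => rw [map_inv₀]; exact inv_mem hx
  | mul x y _ _ hx hy => rw [map_mul]; exact mul_mem hx hy

theorem laurentBaseChange_eq_genField : laurentBaseChange L (F1 M) = genField L M := by
  apply le_antisymm
  · rw [laurentBaseChange, IntermediateField.adjoin_le_iff]
    rintro _ ⟨x, hx, rfl⟩
    exact coeffEmb_mem_genField L M hx
  · rw [genField, IntermediateField.adjoin_le_iff]
    rintro _ ⟨i, rfl⟩
    exact coeffEmb_mem_laurentBaseChange L (gensQ_mem_F1 M i)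

/-- The automorphisms of the field generated by the generators. -/
def fieldAut (hV : VFunStatement) (hM : 3 ≤ M) :
    (ZMod M)ˣ →* (genField L M ≃ₐ[L] genField L M) where
  toFun u := IsFractionRing.algEquivOfAlgEquiv (algAut L M hV hM u)
  map_one' := by
    ext x
    obtain ⟨a, b, -, rfl⟩ := IsFractionRing.div_surjective (Algebra.adjoin L (genSet L M)) x
    rw [map_div₀, IsFractionRing.algEquivOfAlgEquiv_algebraMap,
      IsFractionRing.algEquivOfAlgEquiv_algebraMap, map_one]
    rfl
  map_mul' u v := by
    ext x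
    obtain ⟨a, b, -, rfl⟩ := IsFractionRing.div_surjective (Algebra.adjoin L (genSet L M)) x
    rw [AlgEquiv.mul_apply, map_div₀, map_div₀, map_div₀,
      IsFractionRing.algEquivOfAlgEquiv_algebraMap, IsFractionRing.algEquivOfAlgEquiv_algebraMap,
      IsFractionRing.algEquivOfAlgEquiv_algebraMap, IsFractionRing.algEquivOfAlgEquiv_algebraMap,
      IsFractionRing.algEquivOfAlgEquiv_algebraMap, IsFractionRing.algEquivOfAlgEquiv_algebraMap,
      map_mul]
    rfl

/-- A generator as an element of the field generated by the generators. -/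
def genK (i : GenIdx M) : genField L M :=
  ⟨gensL L M i, IntermediateField.subset_adjoin _ _ ⟨i, rfl⟩⟩

theorem fieldAut_genK (hV : VFunStatement) (hM : 3 ≤ M) (u : (ZMod M)ˣ) (i : GenIdx M) :
    fieldAut L M hV hM u (genK L M i) = genK L M (genPerm M u i) := by
  have h1 : genK L M i = algebraMap (Algebra.adjoin L (genSet L M)) (genField L M) (genA L M i) :=
    rfl
  have h2 : genK L M (genPerm M u i)
      = algebraMap (Algebra.adjoin L (genSet L M)) (genField L M) (genA L M (genPerm M u i)) :=
    rfl
  rw [h1, h2]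
  show IsFractionRing.algEquivOfAlgEquiv (algAut L M hV hM u) _ = _
  rw [IsFractionRing.algEquivOfAlgEquiv_algebraMap, algAut_genA]

/-- **The diamond automorphisms** of `L · F1 M`. -/
def diamondAutL (hV : VFunStatement) (hM : 3 ≤ M) :
    (ZMod M)ˣ →* (laurentBaseChange L (F1 M) ≃ₐ[L] laurentBaseChange L (F1 M)) :=
  (AlgEquiv.autCongr
    (IntermediateField.equivOfEq (laurentBaseChange_eq_genField L M)).symm).toMonoidHom.comp
    (fieldAut L M hV hM)

/-- A generator as an element of `L · F1 M`. -/
def genBC (i : GenIdx M) : laurentBaseChange L (F1 M) :=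
  ⟨gensL L M i, coeffEmb_mem_laurentBaseChange L (gensQ_mem_F1 M i)⟩

theorem diamondAutL_genBC (hV : VFunStatement) (hM : 3 ≤ M) (u : (ZMod M)ˣ) (i : GenIdx M) :
    diamondAutL L M hV hM u (genBC L M i) = genBC L M (genPerm M u i) := by
  have h1 : (IntermediateField.equivOfEq (laurentBaseChange_eq_genField L M)) (genBC L M i)
      = genK L M i := rfl
  show (IntermediateField.equivOfEq (laurentBaseChange_eq_genField L M)).symm
    (fieldAut L M hV hM u
      ((IntermediateField.equivOfEq (laurentBaseChange_eq_genField L M)) (genBC L M i))) = _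
  rw [h1, fieldAut_genK]
  rfl

end Fermat.Agent.H80.ES1

end
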