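/-
P-DS / P-ES1, row 574 ES1-DIAM (helper80), part 4: the diamond data.

`theorem diamondExists (hV : VFunStatement) : DiamondExistsStatement`.
-/
import Fermat.Agent.H80.ES1.Diamond

set_option autoImplicit false
set_option linter.unusedSectionVars false

noncomputable section

open UpperHalfPlane ModularCurve CongruenceSubgroup
open scoped MatrixGroups

namespace Fermat.Agent.H80.ES1

open Fermat.Agent.H29.ES1

variable (L : Type) [Field L] [Algebra ℚ L] (M : ℕ) [NeZero M]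

/-! ### Fixed elements -/

/-- `y` lies in `L · F1 M` and is fixed by `σ`. -/
def IsFixedBy (σ : laurentBaseChange L (F1 M) ≃ₐ[L] laurentBaseChange L (F1 M))
    (y : LaurentSeries L) : Prop :=
  ∃ hy : y ∈ laurentBaseChange L (F1 M), σ ⟨y, hy⟩ = ⟨y, hy⟩

variable {L M}

theorem IsFixedBy.algebraMap (σ : laurentBaseChange L (F1 M) ≃ₐ[L] laurentBaseChange L (F1 M))
    (c : L) : IsFixedBy L M σ (algebraMap L (LaurentSeries L) c) :=
  ⟨(laurentBaseChange L (F1 M)).algebraMap_mem c, σ.commutes c⟩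

theorem IsFixedBy.add {σ : laurentBaseChange L (F1 M) ≃ₐ[L] laurentBaseChange L (F1 M)}
    {x y : LaurentSeries L} (hx : IsFixedBy L M σ x) (hy : IsFixedBy L M σ y) :
    IsFixedBy L M σ (x + y) := by
  obtain ⟨hx1, hx2⟩ := hx
  obtain ⟨hy1, hy2⟩ := hy
  refine ⟨add_mem hx1 hy1, ?_⟩
  have : (⟨x + y, add_mem hx1 hy1⟩ : laurentBaseChange L (F1 M)) = ⟨x, hx1⟩ + ⟨y, hy1⟩ := rfl
  rw [this]
  exact (map_add σ (⟨x, hx1⟩ : laurentBaseChange L (F1 M)) ⟨y, hy1⟩).trans (by rw [hx2, hy2])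

theorem IsFixedBy.mul {σ : laurentBaseChange L (F1 M) ≃ₐ[L] laurentBaseChange L (F1 M)}
    {x y : LaurentSeries L} (hx : IsFixedBy L M σ x) (hy : IsFixedBy L M σ y) :
    IsFixedBy L M σ (x * y) := by
  obtain ⟨hx1, hx2⟩ := hx
  obtain ⟨hy1, hy2⟩ := hy
  refine ⟨mul_mem hx1 hy1, ?_⟩
  have : (⟨x * y, mul_mem hx1 hy1⟩ : laurentBaseChange L (F1 M)) = ⟨x, hx1⟩ * ⟨y, hy1⟩ := rfl
  rw [this]
  exact (map_mul σ (⟨x, hx1⟩ : laurentBaseChange L (F1 M)) ⟨y, hy1⟩).trans (by rw [hx2, hy2])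

theorem IsFixedBy.neg {σ : laurentBaseChange L (F1 M) ≃ₐ[L] laurentBaseChange L (F1 M)}
    {x : LaurentSeries L} (hx : IsFixedBy L M σ x) : IsFixedBy L M σ (-x) := by
  obtain ⟨hx1, hx2⟩ := hx
  refine ⟨neg_mem hx1, ?_⟩
  have : (⟨-x, neg_mem hx1⟩ : laurentBaseChange L (F1 M)) = -⟨x, hx1⟩ := rfl
  rw [this]
  exact (map_neg σ (⟨x, hx1⟩ : laurentBaseChange L (F1 M))).trans (by rw [hx2])

theorem IsFixedBy.inv {σ : laurentBaseChange L (F1 M) ≃ₐ[L] laurentBaseChange L (F1 M)}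
    {x : LaurentSeries L} (hx : IsFixedBy L M σ x) : IsFixedBy L M σ x⁻¹ := by
  obtain ⟨hx1, hx2⟩ := hx
  refine ⟨inv_mem hx1, ?_⟩
  have : (⟨x⁻¹, inv_mem hx1⟩ : laurentBaseChange L (F1 M)) = (⟨x, hx1⟩)⁻¹ := rfl
  rw [this]
  exact (map_inv₀ σ (⟨x, hx1⟩ : laurentBaseChange L (F1 M))).trans (by rw [hx2])

theorem IsFixedBy.one (σ : laurentBaseChange L (F1 M) ≃ₐ[L] laurentBaseChange L (F1 M)) :
    IsFixedBy L M σ 1 := by
  have := IsFixedBy.algebraMap σ (1 : L)
  rwa [map_one] at this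

variable (L M)

/-- The diamond automorphisms fix the coefficientwise images of the elements of `F₀(M)`. -/
theorem isFixedBy_coeffEmb (hV : VFunStatement) (hM : 3 ≤ M) (u : (ZMod M)ˣ)
    {z : LaurentSeries ℚ} (hz : z ∈ modularFunctionFieldFull M) :
    IsFixedBy L M (diamondAutL L M hV hM u) (coeffEmb L z) := by
  rw [modularFunctionFieldFull] at hz
  induction hz using IntermediateField.adjoin_induction with
  | mem x hx =>
    obtain ⟨d, hd, hdM, rfl⟩ := hx
    refine ⟨coeffEmb_mem_laurentBaseChange L (gensQ_mem_F1 M (Sum.inl ⟨d, hdM⟩)), ?_⟩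
    exact diamondAutL_genBC L M hV hM u (Sum.inl ⟨d, hdM⟩)
  | algebraMap c =>
    rw [coeffEmb_algebraMap_rat]
    exact IsFixedBy.algebraMap _ _
  | add x y _ _ hx hy => rw [map_add]; exact hx.add hy
  | inv x _ hx => rw [map_inv₀]; exact hx.inv
  | mul x y _ _ hx hy => rw [map_mul]; exact hx.mul hy

/-- The diamond automorphisms fix `L · F₀(M)`. -/
theorem isFixedBy_of_mem_full (hV : VFunStatement) (hM : 3 ≤ M) (u : (ZMod M)ˣ)
    {y : LaurentSeries L} (hy : y ∈ laurentBaseChange L (modularFunctionFieldFull M)) :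
    IsFixedBy L M (diamondAutL L M hV hM u) y := by
  rw [mem_laurentBaseChange_iff] at hy
  induction hy using Subfield.closure_induction with
  | mem y hy =>
    rcases hy with ⟨c, rfl⟩ | ⟨z, hz, rfl⟩
    · exact IsFixedBy.algebraMap _ c
    · exact isFixedBy_coeffEmb L M hV hM u hz
  | one => exact IsFixedBy.one _
  | add x y _ _ hx hy => exact hx.add hy
  | neg x _ hx => exact hx.neg
  | inv x _ hx => exact hx.inv
  | mul x y _ _ hx hy => exact hx.mul hy

/-- The diamond data over `L`. -/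
def diamondData (hV : VFunStatement) (hM : 3 ≤ M) : DiamondData L M where
  aut := diamondAutL L M hV hM
  aut_full d x hx := by
    obtain ⟨hx1, hx2⟩ := isFixedBy_of_mem_full L M hV hM d hx
    exact hx2
  aut_v d a := diamondAutL_genBC L M hV hM d (Sum.inr a)

/-- **ES1-DIAM.**  The diamond automorphisms exist over every field of characteristic zero. -/
theorem diamondExists (hV : VFunStatement) : DiamondExistsStatement :=
  fun L _ _ M _ hM => ⟨diamondData L M hV hM⟩

end Fermat.Agent.H80.ES1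

end
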