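/-
P-DS / P-ES1 (helper80): automorphisms of fields of modular functions from permutations of
generators, in an abstract setting.

* `core_rat_gen`, `core_field_gen`: if the generators `gQ i ∈ ℚ((q))` are the Laurent expansions
  of functions `gF i` on `ℍ` and a self-map `π` of the index set is realised by a self-map of `ℍ`
  (`gF i ∘ γ = gF (π i)`), then polynomial relations between the generators (over `ℚ`, or over any
  field `L ⊇ ℚ`) are stable under `π`.
* `permAut`: the induced automorphism of the field generated over `L` by the generators.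
-/
import Fermat.Agent.H80.ES1.DiamondLD

set_option autoImplicit false
set_option linter.unusedSectionVars false

noncomputable section

open UpperHalfPlane ModularCurve IntermediateField
open scoped IntermediateField.algebraAdjoinAdjoin

namespace Fermat.Agent.H80.GenAut

open Fermat.Agent.H80.ES1 Fermat.Agent.H44

variable {ι : Type}

/-- Polynomial relations over `ℚ` are stable under a realised self-map of the index set. -/
theorem core_rat_gen (gQ : ι → LaurentSeries ℚ) (gF : ι → (ℍ → ℂ))
    (hrel : ∀ i, LaurentRel (gF i) (coeffEmb ℂ (gQ i))) (π : ι → ι)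
    (hπ : ∃ γ : ℍ → ℍ, ∀ i z, gF i (γ z) = gF (π i) z)
    (P : MvPolynomial ι ℚ) (hP : MvPolynomial.aeval gQ P = 0) :
    MvPolynomial.aeval (gQ ∘ π) P = 0 := by
  have hC : MvPolynomial.aeval (fun i => coeffEmb ℂ (gQ i)) P = 0 := by
    have := congrArg (coeffEmbA ℂ) hP
    rw [map_zero, ← AlgHom.comp_apply, MvPolynomial.comp_aeval] at this
    exact this
  have hrel1 := laurentRel_aeval gF (fun i => coeffEmb ℂ (gQ i)) hrel P
  rw [hC] at hrel1
  have hfun : MvPolynomial.aeval gF P = 0 := hrel1.unique_left laurentRel_zero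
  obtain ⟨γ, hγ⟩ := hπ
  have hfun' : MvPolynomial.aeval (gF ∘ π) P = 0 := by
    have := congrArg (precompHom γ) hfun
    rw [map_zero, ← AlgHom.comp_apply, MvPolynomial.comp_aeval] at this
    have hgen : (fun i => precompHom γ (gF i)) = gF ∘ π := by
      funext i z
      exact hγ i z
    rw [hgen] at this
    exact this
  have hrel' := laurentRel_aeval (gF ∘ π) (fun i => coeffEmb ℂ (gQ (π i)))
    (fun i => hrel (π i)) P
  rw [hfun'] at hrel'
  have hC' : MvPolynomial.aeval (fun i => coeffEmb ℂ (gQ (π i))) P = 0 :=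
    hrel'.unique_right laurentRel_zero
  apply coeffEmb_injective ℂ
  rw [map_zero]
  have := MvPolynomial.comp_aeval (R := ℚ) (f := gQ ∘ π) (coeffEmbA ℂ)
  have h2 := congrArg (fun φ => φ P) this
  simp only [AlgHom.comp_apply, coeffEmbA_apply] at h2
  rw [h2]
  exact hC'

variable (L : Type) [Field L] [Algebra ℚ L]

/-- The generators over `L`. -/
def gL (gQ : ι → LaurentSeries ℚ) : ι → LaurentSeries L := fun i => coeffEmb L (gQ i)

/-- Relations over `L` between the generators are stable under `π`. -/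
def RelStable (gQ : ι → LaurentSeries ℚ) (π : ι → ι) : Prop :=
  ∀ P : MvPolynomial ι L, MvPolynomial.aeval (gL L gQ) P = 0 →
    MvPolynomial.aeval (gL L gQ ∘ π) P = 0

/-- Polynomial relations over `L` are stable under a realised self-map of the index set. -/
theorem core_field_gen (gQ : ι → LaurentSeries ℚ) (gF : ι → (ℍ → ℂ))
    (hrel : ∀ i, LaurentRel (gF i) (coeffEmb ℂ (gQ i))) (π : ι → ι)
    (hπ : ∃ γ : ℍ → ℍ, ∀ i z, gF i (γ z) = gF (π i) z) : RelStable L gQ π := by
  intro P hP
  let b := Module.Basis.ofVectorSpace ℚ L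
  ext n
  rw [HahnSeries.coeff_zero]
  apply b.repr.injective
  rw [map_zero]
  ext k
  rw [Finsupp.zero_apply]
  obtain ⟨Q, hQ⟩ := exists_coord_poly L (b.coord k) P
  have hQ0 : MvPolynomial.aeval gQ Q = 0 := by
    ext n'
    rw [← hQ gQ n']
    have : (MvPolynomial.aeval (fun i => coeffEmb L (gQ i)) P) = 0 := hP
    rw [this, HahnSeries.coeff_zero, HahnSeries.coeff_zero, map_zero]
  have hQ1 := core_rat_gen gQ gF hrel π hπ Q hQ0
  have := hQ (gQ ∘ π) n
  rw [hQ1, HahnSeries.coeff_zero] at this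
  exact this

variable (gQ : ι → LaurentSeries ℚ)

/-- The set of generators over `L`. -/
abbrev gSet : Set (LaurentSeries L) := Set.range (gL L gQ)

/-- Evaluation of polynomials at the generators, onto the algebra they generate. -/
def evalG : MvPolynomial ι L →ₐ[L] Algebra.adjoin L (gSet L gQ) :=
  (MvPolynomial.aeval (gL L gQ)).codRestrict (Algebra.adjoin L (gSet L gQ))
    (fun P => by
      rw [Algebra.adjoin_range_eq_range_aeval]
      exact ⟨P, rfl⟩)

theorem coe_evalG (P : MvPolynomial ι L) :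
    ((evalG L gQ P : Algebra.adjoin L (gSet L gQ)) : LaurentSeries L)
      = MvPolynomial.aeval (gL L gQ) P := rfl

theorem evalG_surjective : Function.Surjective (evalG L gQ) := by
  rintro ⟨a, ha⟩
  have ha' := ha
  rw [Algebra.adjoin_range_eq_range_aeval] at ha'
  obtain ⟨P, hP⟩ := ha'
  exact ⟨P, Subtype.ext hP⟩

theorem evalG_eq_zero_iff (P : MvPolynomial ι L) :
    evalG L gQ P = 0 ↔ MvPolynomial.aeval (gL L gQ) P = 0 :=
  ⟨fun h => by
    have := congrArg Subtype.val h
    exact this, fun h => Subtype.ext h⟩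

/-- The ideal of relations. -/
def relI : Ideal (MvPolynomial ι L) := RingHom.ker (evalG L gQ)

theorem mem_relI (P : MvPolynomial ι L) :
    P ∈ relI L gQ ↔ MvPolynomial.aeval (gL L gQ) P = 0 := by
  rw [relI, RingHom.mem_ker]
  exact evalG_eq_zero_iff L gQ P

variable {L gQ}

theorem rename_mem_relI {π : ι → ι} (hπ : RelStable L gQ π)
    {P : MvPolynomial ι L} (hP : P ∈ relI L gQ) :
    MvPolynomial.rename π P ∈ relI L gQ := by
  rw [mem_relI] at hP ⊢
  rw [MvPolynomial.aeval_rename]
  exact hπ P hP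

/-- The endomorphism of the quotient induced by `π`. -/
def qHom {π : ι → ι} (hπ : RelStable L gQ π) :
    (MvPolynomial ι L ⧸ relI L gQ) →ₐ[L] (MvPolynomial ι L ⧸ relI L gQ) :=
  Ideal.Quotient.liftₐ (relI L gQ)
    ((Ideal.Quotient.mkₐ L (relI L gQ)).comp (MvPolynomial.rename π))
    (fun P hP => by
      rw [AlgHom.comp_apply, Ideal.Quotient.mkₐ_eq_mk, Ideal.Quotient.eq_zero_iff_mem]
      exact rename_mem_relI hπ hP)

theorem qHom_mk {π : ι → ι} (hπ : RelStable L gQ π) (P : MvPolynomial ι L) :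
    qHom hπ (Ideal.Quotient.mk (relI L gQ) P)
      = Ideal.Quotient.mk (relI L gQ) (MvPolynomial.rename π P) := rfl

theorem qHom_comp {π π' : ι → ι} (hπ : RelStable L gQ π) (hπ' : RelStable L gQ π')
    (h : π ∘ π' = id) :
    (qHom hπ).comp (qHom hπ') = AlgHom.id L (MvPolynomial ι L ⧸ relI L gQ) := by
  apply Ideal.Quotient.algHom_ext
  apply MvPolynomial.algHom_ext
  intro i
  have hi : π (π' i) = i := congrFun h i
  simp only [AlgHom.comp_apply, Ideal.Quotient.mkₐ_eq_mk, qHom_mk, MvPolynomial.rename_X,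
    AlgHom.id_apply, hi]

/-- The automorphism of the quotient induced by a bijection `π`. -/
def qAut {π π' : ι → ι} (hπ : RelStable L gQ π) (hπ' : RelStable L gQ π')
    (h1 : π ∘ π' = id) (h2 : π' ∘ π = id) :
    (MvPolynomial ι L ⧸ relI L gQ) ≃ₐ[L] (MvPolynomial ι L ⧸ relI L gQ) :=
  AlgEquiv.ofAlgHom (qHom hπ) (qHom hπ') (qHom_comp hπ hπ' h1) (qHom_comp hπ' hπ h2)

theorem qAut_apply {π π' : ι → ι} (hπ : RelStable L gQ π) (hπ' : RelStable L gQ π')
    (h1 : π ∘ π' = id) (h2 : π' ∘ π = id) (x : MvPolynomial ι L ⧸ relI L gQ) :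
    qAut hπ hπ' h1 h2 x = qHom hπ x := rfl

theorem qAut_mk_X {π π' : ι → ι} (hπ : RelStable L gQ π) (hπ' : RelStable L gQ π')
    (h1 : π ∘ π' = id) (h2 : π' ∘ π = id) (i : ι) :
    qAut hπ hπ' h1 h2 (Ideal.Quotient.mk (relI L gQ) (MvPolynomial.X i))
      = Ideal.Quotient.mk (relI L gQ) (MvPolynomial.X (π i)) := by
  rw [qAut_apply, qHom_mk, MvPolynomial.rename_X]

variable (L gQ)

/-- The quotient by the relations is the algebra generated by the generators. -/
def qEquiv : (MvPolynomial ι L ⧸ relI L gQ) ≃ₐ[L] Algebra.adjoin L (gSet L gQ) :=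
  Ideal.quotientKerAlgEquivOfSurjective (evalG_surjective L gQ)

theorem qEquiv_mk (P : MvPolynomial ι L) :
    qEquiv L gQ (Ideal.Quotient.mk (relI L gQ) P) = evalG L gQ P := rfl

/-- A generator as an element of the algebra generated by the generators. -/
def gA (i : ι) : Algebra.adjoin L (gSet L gQ) :=
  ⟨gL L gQ i, Algebra.subset_adjoin ⟨i, rfl⟩⟩

theorem qEquiv_mk_X (i : ι) :
    qEquiv L gQ (Ideal.Quotient.mk (relI L gQ) (MvPolynomial.X i)) = gA L gQ i := by
  rw [qEquiv_mk]
  apply Subtype.ext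
  rw [coe_evalG, MvPolynomial.aeval_X]
  rfl

variable {L gQ}

/-- The automorphism of the algebra generated by the generators. -/
def aAut {π π' : ι → ι} (hπ : RelStable L gQ π) (hπ' : RelStable L gQ π')
    (h1 : π ∘ π' = id) (h2 : π' ∘ π = id) :
    Algebra.adjoin L (gSet L gQ) ≃ₐ[L] Algebra.adjoin L (gSet L gQ) :=
  AlgEquiv.autCongr (qEquiv L gQ) (qAut hπ hπ' h1 h2)

theorem aAut_gA {π π' : ι → ι} (hπ : RelStable L gQ π) (hπ' : RelStable L gQ π')
    (h1 : π ∘ π' = id) (h2 : π' ∘ π = id) (i : ι) :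
    aAut hπ hπ' h1 h2 (gA L gQ i) = gA L gQ (π i) := by
  have e1 : (qEquiv L gQ).symm (gA L gQ i)
      = Ideal.Quotient.mk (relI L gQ) (MvPolynomial.X i) := by
    rw [AlgEquiv.symm_apply_eq, qEquiv_mk_X]
  show qEquiv L gQ (qAut hπ hπ' h1 h2 ((qEquiv L gQ).symm (gA L gQ i))) = _
  rw [e1, qAut_mk_X, qEquiv_mk_X]

variable (L gQ)

/-- The field generated by the generators. -/
abbrev gField : IntermediateField L (LaurentSeries L) :=
  IntermediateField.adjoin L (gSet L gQ)

/-- A generator as an element of the field generated by the generators. -/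
def gK (i : ι) : gField L gQ :=
  ⟨gL L gQ i, IntermediateField.subset_adjoin _ _ ⟨i, rfl⟩⟩

variable {L gQ}

/-- **The automorphism of the field generated by the generators** induced by a bijection `π` of
the index set preserving the relations. -/
def permAut {π π' : ι → ι} (hπ : RelStable L gQ π) (hπ' : RelStable L gQ π')
    (h1 : π ∘ π' = id) (h2 : π' ∘ π = id) : gField L gQ ≃ₐ[L] gField L gQ :=
  IsFractionRing.algEquivOfAlgEquiv (aAut hπ hπ' h1 h2)

theorem permAut_gK {π π' : ι → ι} (hπ : RelStable L gQ π) (hπ' : RelStable L gQ π')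
    (h1 : π ∘ π' = id) (h2 : π' ∘ π = id) (i : ι) :
    permAut hπ hπ' h1 h2 (gK L gQ i) = gK L gQ (π i) := by
  have e1 : gK L gQ i = algebraMap (Algebra.adjoin L (gSet L gQ)) (gField L gQ) (gA L gQ i) :=
    rfl
  have e2 : gK L gQ (π i)
      = algebraMap (Algebra.adjoin L (gSet L gQ)) (gField L gQ) (gA L gQ (π i)) := rfl
  rw [e1, e2]
  show IsFractionRing.algEquivOfAlgEquiv (aAut hπ hπ' h1 h2) _ = _
  rw [IsFractionRing.algEquivOfAlgEquiv_algebraMap, aAut_gA]

end Fermat.Agent.H80.GenAut

end
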