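/-
P-DS / P-ES1 (helper80), diamond lift, part 1: the analytic core for the Hecke field.

The field of the Hecke correspondence `heckeField (F1 M) ℓ` is generated by the generators of
`F1 M` and their images under `q ↦ q^ℓ`.  Polynomial relations between these doubled generators
are stable under the diamond permutation, applied to both copies: it is realised by an element
of `Γ₀(M ℓ)` with upper left entry `≡ d mod M`.
-/
import Fermat.Agent.H80.ES1.GenAut
import Fermat.Agent.H44.Gen11.Scale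
import Fermat.Agent.H29.ES1.Hecke

set_option autoImplicit false
set_option linter.unusedSectionVars false

noncomputable section

open UpperHalfPlane ModularCurve CongruenceSubgroup
open scoped MatrixGroups

namespace Fermat.Agent.H80.ES1

open Fermat.Agent.H29.ES1 Fermat.Agent.H44 Fermat.Agent.H23 Fermat.Agent.H18 Fermat.Agent.H82

variable (M ℓ : ℕ) [NeZero M] [NeZero ℓ]

/-- The index type of the generators of the Hecke field. -/
abbrev GenIdx2 : Type := GenIdx M ⊕ GenIdx M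

/-- The generators of the Hecke field as Laurent series over `ℚ`. -/
def gensQ2 : GenIdx2 M → LaurentSeries ℚ
  | Sum.inl i => gensQ M i
  | Sum.inr i => qExpand ℚ ℓ (gensQ M i)

/-- The holomorphic functions representing the generators of the Hecke field. -/
def gensFun2 : GenIdx2 M → (ℍ → ℂ)
  | Sum.inl i => gensFun M i
  | Sum.inr i => gensFun M i ∘ scaleH ℓ

/-- The permutation of the doubled generators attached to a unit `u`. -/
def genPerm2 (u : (ZMod M)ˣ) : GenIdx2 M → GenIdx2 M := Sum.map (genPerm M u) (genPerm M u)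

@[simp] theorem genPerm2_inl (u : (ZMod M)ˣ) (i : GenIdx M) :
    genPerm2 M u (Sum.inl i) = Sum.inl (genPerm M u i) := rfl

@[simp] theorem genPerm2_inr (u : (ZMod M)ˣ) (i : GenIdx M) :
    genPerm2 M u (Sum.inr i) = Sum.inr (genPerm M u i) := rfl

theorem genPerm2_comp (u v : (ZMod M)ˣ) (h : u * v = 1) :
    genPerm2 M u ∘ genPerm2 M v = id := by
  have h1 : genPerm M u ∘ genPerm M v = id := by
    rw [← genPerm_mul, h, genPerm_one]
  funext i
  cases i with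
  | inl i => exact congrArg Sum.inl (congrFun h1 i)
  | inr i => exact congrArg Sum.inr (congrFun h1 i)

theorem laurentRel_gens2 (hV : VFunStatement) (hM : 3 ≤ M) (i : GenIdx2 M) :
    LaurentRel (gensFun2 M ℓ i) (coeffEmb ℂ (gensQ2 M ℓ i)) := by
  cases i with
  | inl i => exact laurentRel_gens M hV hM i
  | inr i =>
    show LaurentRel (gensFun M i ∘ scaleH ℓ) (coeffEmb ℂ (qExpand ℚ ℓ (gensQ M i)))
    rw [es1_coeffEmb_qExpand]
    exact (laurentRel_gens M hV hM i).scale ℓ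

/-- Conjugating an element of `Γ₀(M ℓ)` by `diag(ℓ, 1)`. -/
theorem exists_delta_scale (γ : SL(2, ℤ)) (hγ : γ ∈ Gamma0 (M * ℓ)) :
    ∃ δ : SL(2, ℤ), δ ∈ Gamma0 M ∧
      (δ : Matrix (Fin 2) (Fin 2) ℤ) 0 0 = (γ : Matrix (Fin 2) (Fin 2) ℤ) 0 0 ∧
      ∀ z : ℍ, scaleH ℓ (γ • z) = δ • scaleH ℓ z := by
  have hd0 : 0 < ℓ := Nat.pos_of_ne_zero (NeZero.ne ℓ)
  have hne : (((ℓ : ℤ) : ℝ) * ((1 : ℤ) : ℝ)) ≠ 0 := by simp [hd0.ne']
  rw [Gamma0_mem, ZMod.intCast_zmod_eq_zero_iff_dvd] at hγ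
  obtain ⟨c', hc'⟩ := hγ
  have hdet : γ 0 0 * γ 1 1 - γ 0 1 * γ 1 0 = 1 := by
    have := γ.det_coe
    rwa [Matrix.det_fin_two] at this
  have hdet' : (!![γ 0 0, ℓ * γ 0 1; (M : ℤ) * c', γ 1 1] : Matrix (Fin 2) (Fin 2) ℤ).det = 1 := by
    rw [Matrix.det_fin_two_of]
    rw [hc'] at hdet
    push_cast at hdet
    linear_combination hdet
  let δ : SL(2, ℤ) := ⟨!![γ 0 0, ℓ * γ 0 1; (M : ℤ) * c', γ 1 1], hdet'⟩
  refine ⟨δ, ?_, rfl, fun z => ?_⟩
  · rw [Gamma0_mem]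
    show (((M : ℤ) * c' : ℤ) : ZMod M) = 0
    simp
  · have key := mapGL_mul_upperGL_eq δ γ ℓ 0 1 ℓ 0 1 hne hne
      (by simp [δ]; ring) (by simp [δ]) (by simp [δ]; rw [hc']; push_cast; ring) (by simp [δ])
    calc scaleH ℓ (γ • z)
        = upperGL ((ℓ : ℤ) : ℝ) ((0 : ℤ) : ℝ) ((1 : ℤ) : ℝ) hne • (γ • z) := by
          rw [sep_scaleH_eq ℓ hne]
      _ = (upperGL ((ℓ : ℤ) : ℝ) ((0 : ℤ) : ℝ) ((1 : ℤ) : ℝ) hne * (γ : GL (Fin 2) ℝ)) • z := by
          rw [mul_smul]; rfl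
      _ = ((δ : GL (Fin 2) ℝ) * upperGL ((ℓ : ℤ) : ℝ) ((0 : ℤ) : ℝ) ((1 : ℤ) : ℝ) hne) • z := by
          rw [key]
      _ = δ • (upperGL ((ℓ : ℤ) : ℝ) ((0 : ℤ) : ℝ) ((1 : ℤ) : ℝ) hne • z) := by
          rw [mul_smul]; rfl
      _ = δ • scaleH ℓ z := by rw [sep_scaleH_eq ℓ hne]

/-- An element of `Γ₀(M)` with upper left entry `u` permutes the generators by `genPerm u`. -/
theorem gensFun_smul_of_mem (hV : VFunStatement) (hM : 3 ≤ M) (u : (ZMod M)ˣ) (γ : SL(2, ℤ))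
    (hγ : γ ∈ Gamma0 M)
    (hu : (((γ : Matrix (Fin 2) (Fin 2) ℤ) 0 0 : ℤ) : ZMod M) = (u : ZMod M))
    (i : GenIdx M) (z : ℍ) : gensFun M i (γ • z) = gensFun M (genPerm M u i) z := by
  cases i with
  | inl d =>
    have := neZero_of_dvd_level M d.2
    exact sep_jfun_scaleH_smul M d.1 d.2 γ hγ z
  | inr a =>
    show VFun M (a : ZMod M) (γ • z) = VFun M ((u * a : (ZMod M)ˣ) : ZMod M) z
    rw [(hV M (a : ZMod M) (unit_ne_zero M hM a)).2.2.1 γ hγ z, hu, Units.val_mul]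

/-- For every unit `u` mod `M` there is an element of `Γ₀(M ℓ)` with upper left entry `≡ u`. -/
theorem exists_Gamma0_mul_upperLeft (u : (ZMod M)ˣ) :
    ∃ γ : SL(2, ℤ), γ ∈ Gamma0 (M * ℓ) ∧
      (((γ : Matrix (Fin 2) (Fin 2) ℤ) 0 0 : ℤ) : ZMod M) = (u : ZMod M) := by
  obtain ⟨u', hu'⟩ := ZMod.unitsMap_surjective (Dvd.intro ℓ rfl : M ∣ M * ℓ) u
  obtain ⟨γ, hγ, hγu⟩ := exists_Gamma0_upperLeft (M * ℓ) u'
  refine ⟨γ, hγ, ?_⟩
  have h1 := congrArg (ZMod.castHom (Dvd.intro ℓ rfl : M ∣ M * ℓ) (ZMod M)) hγu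
  rw [map_intCast] at h1
  rw [h1, ← hu']
  rfl

/-- The doubled generators are permuted by a suitable element of `Γ₀(M ℓ)`. -/
theorem exists_gamma_perm2 (hV : VFunStatement) (hM : 3 ≤ M) (u : (ZMod M)ˣ) :
    ∃ g : ℍ → ℍ, ∀ (i : GenIdx2 M) (z : ℍ),
      gensFun2 M ℓ i (g z) = gensFun2 M ℓ (genPerm2 M u i) z := by
  obtain ⟨γ, hγ, hu⟩ := exists_Gamma0_mul_upperLeft M ℓ u
  obtain ⟨δ, hδ, hδ0, hδz⟩ := exists_delta_scale M ℓ γ hγ
  have hγM : γ ∈ Gamma0 M := by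
    rw [Gamma0_mem, ZMod.intCast_zmod_eq_zero_iff_dvd] at hγ ⊢
    exact dvd_trans (by push_cast; exact Dvd.intro _ rfl) hγ
  refine ⟨fun z => γ • z, fun i z => ?_⟩
  cases i with
  | inl i => exact gensFun_smul_of_mem M hV hM u γ hγM hu i z
  | inr i =>
    show gensFun M i (scaleH ℓ (γ • z)) = gensFun M (genPerm M u i) (scaleH ℓ z)
    rw [hδz z]
    exact gensFun_smul_of_mem M hV hM u δ hδ (by rw [hδ0]; exact hu) i (scaleH ℓ z)

variable (L : Type) [Field L] [Algebra ℚ L]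

/-- Polynomial relations over `L` between the doubled generators are stable under the diamond
permutations. -/
theorem relStable2 (hV : VFunStatement) (hM : 3 ≤ M) (u : (ZMod M)ˣ) :
    GenAut.RelStable L (gensQ2 M ℓ) (genPerm2 M u) :=
  GenAut.core_field_gen L (gensQ2 M ℓ) (gensFun2 M ℓ) (laurentRel_gens2 M ℓ hV hM)
    (genPerm2 M u) (exists_gamma_perm2 M ℓ hV hM u)

/-- **The lifted diamond automorphism** of the field generated by the doubled generators. -/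
def liftAut (hV : VFunStatement) (hM : 3 ≤ M) (u : (ZMod M)ˣ) :
    GenAut.gField L (gensQ2 M ℓ) ≃ₐ[L] GenAut.gField L (gensQ2 M ℓ) :=
  GenAut.permAut (relStable2 M ℓ L hV hM u) (relStable2 M ℓ L hV hM u⁻¹)
    (genPerm2_comp M u u⁻¹ (mul_inv_cancel u)) (genPerm2_comp M u⁻¹ u (inv_mul_cancel u))

theorem liftAut_gK (hV : VFunStatement) (hM : 3 ≤ M) (u : (ZMod M)ˣ) (i : GenIdx2 M) :
    liftAut M ℓ L hV hM u (GenAut.gK L (gensQ2 M ℓ) i)
      = GenAut.gK L (gensQ2 M ℓ) (genPerm2 M u i) :=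
  GenAut.permAut_gK _ _ _ _ i

end Fermat.Agent.H80.ES1

end
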