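/-
P-DS / P-ES1 (helper80), diamond lift, part 2: the lift of the diamond automorphisms to the
field of the Hecke correspondence.

`theorem diamondLift (hV : VFunStatement) : Fermat.Agent.H61.ES1.DiamondLiftStatement`.
-/
import Fermat.Agent.H80.ES1.LiftCore
import Fermat.Agent.H80.ES1.DiamondFinal
import Fermat.Agent.H61.ES1.GalHecke

set_option autoImplicit false
set_option linter.unusedSectionVars false

noncomputable section

open ModularCurve

namespace Fermat.Agent.H80.ES1

open Fermat.Agent.H29.ES1 Fermat.Agent.H61.ES1 Fermat.Agent.H23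

variable (L : Type) [Field L] [Algebra ℚ L] (M ℓ : ℕ) [NeZero M] [NeZero ℓ]

/-! ### The Hecke field is generated by the doubled generators -/

theorem gensQ2_mem_heckeField (i : GenIdx2 M) : gensQ2 M ℓ i ∈ heckeField (F1 M) ℓ := by
  cases i with
  | inl i => exact le_heckeField (F1 M) ℓ (gensQ_mem_F1 M i)
  | inr i => exact qExpand_mem_heckeField (F1 M) ℓ (gensQ_mem_F1 M i)

theorem qExpand_algebraMap_rat (c : ℚ) :
    qExpand ℚ ℓ (algebraMap ℚ (LaurentSeries ℚ) c) = algebraMap ℚ (LaurentSeries ℚ) c := by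
  rw [algebraMap_laurentSeries_eq_single, qExpand_single, mul_zero]

theorem coeffEmb_mem_gField2_of_F1 {x : LaurentSeries ℚ} (hx : x ∈ F1 M) :
    coeffEmb L x ∈ GenAut.gField L (gensQ2 M ℓ) := by
  rw [F1] at hx
  induction hx using IntermediateField.adjoin_induction with
  | mem x hx =>
    rw [← range_gensQ] at hx
    obtain ⟨i, rfl⟩ := hx
    exact IntermediateField.subset_adjoin _ _ ⟨Sum.inl i, rfl⟩
  | algebraMap c =>
    rw [coeffEmb_algebraMap_rat]
    exact IntermediateField.algebraMap_mem _ _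
  | add x y _ _ hx hy => rw [map_add]; exact add_mem hx hy
  | inv x _ hx => rw [map_inv₀]; exact inv_mem hx
  | mul x y _ _ hx hy => rw [map_mul]; exact mul_mem hx hy

theorem coeffEmb_qExpand_mem_gField2 {x : LaurentSeries ℚ} (hx : x ∈ F1 M) :
    coeffEmb L (qExpand ℚ ℓ x) ∈ GenAut.gField L (gensQ2 M ℓ) := by
  rw [F1] at hx
  induction hx using IntermediateField.adjoin_induction with
  | mem x hx =>
    rw [← range_gensQ] at hx
    obtain ⟨i, rfl⟩ := hx
    exact IntermediateField.subset_adjoin _ _ ⟨Sum.inr i, rfl⟩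
  | algebraMap c =>
    rw [qExpand_algebraMap_rat, coeffEmb_algebraMap_rat]
    exact IntermediateField.algebraMap_mem _ _
  | add x y _ _ hx hy => rw [map_add, map_add]; exact add_mem hx hy
  | inv x _ hx => rw [map_inv₀, map_inv₀]; exact inv_mem hx
  | mul x y _ _ hx hy => rw [map_mul, map_mul]; exact mul_mem hx hy

theorem coeffEmb_mem_gField2 {x : LaurentSeries ℚ} (hx : x ∈ heckeField (F1 M) ℓ) :
    coeffEmb L x ∈ GenAut.gField L (gensQ2 M ℓ) := by
  rw [heckeField] at hx
  induction hx using IntermediateField.adjoin_induction with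
  | mem x hx =>
    rcases hx with hx | ⟨y, hy, rfl⟩
    · exact coeffEmb_mem_gField2_of_F1 L M ℓ hx
    · exact coeffEmb_qExpand_mem_gField2 L M ℓ hy
  | algebraMap c =>
    rw [coeffEmb_algebraMap_rat]
    exact IntermediateField.algebraMap_mem _ _
  | add x y _ _ hx hy => rw [map_add]; exact add_mem hx hy
  | inv x _ hx => rw [map_inv₀]; exact inv_mem hx
  | mul x y _ _ hx hy => rw [map_mul]; exact mul_mem hx hy

theorem laurentBaseChange_hecke_eq :
    laurentBaseChange L (heckeField (F1 M) ℓ) = GenAut.gField L (gensQ2 M ℓ) := by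
  apply le_antisymm
  · rw [laurentBaseChange, IntermediateField.adjoin_le_iff]
    rintro _ ⟨x, hx, rfl⟩
    exact coeffEmb_mem_gField2 L M ℓ hx
  · rw [IntermediateField.adjoin_le_iff]
    rintro _ ⟨i, rfl⟩
    exact coeffEmb_mem_laurentBaseChange L (gensQ2_mem_heckeField M ℓ i)

/-! ### The lifted automorphism on `L · heckeField (F1 M) ℓ` -/

/-- **The lifted diamond automorphism** of `L · heckeField (F1 M) ℓ`. -/
def liftAutBC (hV : VFunStatement) (hM : 3 ≤ M) (u : (ZMod M)ˣ) :
    laurentBaseChange L (heckeField (F1 M) ℓ) ≃ₐ[L] laurentBaseChange L (heckeField (F1 M) ℓ) :=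
  AlgEquiv.autCongr (IntermediateField.equivOfEq (laurentBaseChange_hecke_eq L M ℓ)).symm
    (liftAut M ℓ L hV hM u)

/-- A doubled generator as an element of `L · heckeField (F1 M) ℓ`. -/
def genBC2 (i : GenIdx2 M) : laurentBaseChange L (heckeField (F1 M) ℓ) :=
  ⟨coeffEmb L (gensQ2 M ℓ i), coeffEmb_mem_laurentBaseChange L (gensQ2_mem_heckeField M ℓ i)⟩

theorem liftAutBC_genBC2 (hV : VFunStatement) (hM : 3 ≤ M) (u : (ZMod M)ˣ) (i : GenIdx2 M) :
    liftAutBC L M ℓ hV hM u (genBC2 L M ℓ i) = genBC2 L M ℓ (genPerm2 M u i) := by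
  have h1 : (IntermediateField.equivOfEq (laurentBaseChange_hecke_eq L M ℓ)) (genBC2 L M ℓ i)
      = GenAut.gK L (gensQ2 M ℓ) i := rfl
  show (IntermediateField.equivOfEq (laurentBaseChange_hecke_eq L M ℓ)).symm
    (liftAut M ℓ L hV hM u
      ((IntermediateField.equivOfEq (laurentBaseChange_hecke_eq L M ℓ)) (genBC2 L M ℓ i))) = _
  rw [h1, liftAut_gK]
  rfl

theorem alphaGen_genBC (i : GenIdx M) :
    alphaGen L (F1 M) ℓ (genBC L M i) = genBC2 L M ℓ (Sum.inl i) :=
  Subtype.ext (coe_alphaGen (F1 M) ℓ (genBC L M i))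

theorem betaGen_genBC (i : GenIdx M) :
    betaGen L (F1 M) ℓ (genBC L M i) = genBC2 L M ℓ (Sum.inr i) :=
  Subtype.ext ((coe_betaGen (F1 M) ℓ (genBC L M i)).trans
    (es1_coeffEmb_qExpand L ℓ (gensQ M i)).symm)

/-! ### The values of the diamond automorphisms on generators -/

theorem diamondData_aut_genBC (dd : DiamondData L M) (d : (ZMod M)ˣ) (i : GenIdx M) :
    dd.aut d (genBC L M i) = genBC L M (genPerm M d i) := by
  cases i with
  | inl d' =>
    have := neZero_of_dvd_level M d'.2
    refine dd.aut_full d _ ?_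
    exact coeffEmb_mem_laurentBaseChange L
      (divisorExpansions_subset_full M ⟨d'.1, neZero_of_dvd_level M d'.2, d'.2, rfl⟩)
  | inr a => exact dd.aut_v d a

theorem diamondAut_genBC (hV : VFunStatement) (hM : 3 ≤ M) (d : (ZMod M)ˣ) (i : GenIdx M) :
    diamondAut L M d (genBC L M i) = genBC L M (genPerm M d i) := by
  unfold diamondAut
  rw [dif_pos ⟨diamondData L M hV hM⟩]
  exact diamondData_aut_genBC L M _ d i

/-! ### Ring homomorphisms out of `L · F1 M` are determined on the generators -/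

theorem ringHom_ext_F1 {T : Type*} [Field T] (f₁ f₂ : ↥(laurentBaseChange L (F1 M)) →+* T)
    (hc : ∀ a : L, f₁ (algebraMap L _ a) = f₂ (algebraMap L _ a))
    (hg : ∀ i : GenIdx M, f₁ (genBC L M i) = f₂ (genBC L M i)) : f₁ = f₂ := by
  refine ringHom_ext_laurentBaseChange f₁ f₂ hc (fun y hy => ?_)
  have key : f₁.comp (coeffEmbHom L (F1 M)) = f₂.comp (coeffEmbHom L (F1 M)) := by
    refine ringHom_ext_adjoin _ _ fun z hz => ?_
    rw [← range_gensQ] at hz
    obtain ⟨i, rfl⟩ := hz
    exact hg i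
  exact RingHom.congr_fun key ⟨y, hy⟩

/-! ### The diamond lift -/

theorem liftAutBC_alphaGen (hV : VFunStatement) (hM : 3 ≤ M) (d : (ZMod M)ˣ)
    (x : laurentBaseChange L (F1 M)) :
    liftAutBC L M ℓ hV hM d (alphaGen L (F1 M) ℓ x)
      = alphaGen L (F1 M) ℓ (diamondAut L M d x) := by
  have key : ((liftAutBC L M ℓ hV hM d).toAlgHom.toRingHom.comp (alphaGen L (F1 M) ℓ).toRingHom)
      = ((alphaGen L (F1 M) ℓ).toRingHom.comp (diamondAut L M d).toAlgHom.toRingHom) := by
    refine ringHom_ext_F1 L M _ _ (fun a => ?_) (fun i => ?_)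
    · show liftAutBC L M ℓ hV hM d (alphaGen L (F1 M) ℓ (algebraMap L _ a))
        = alphaGen L (F1 M) ℓ (diamondAut L M d (algebraMap L _ a))
      rw [AlgHom.commutes, AlgEquiv.commutes, AlgEquiv.commutes, AlgHom.commutes]
    · show liftAutBC L M ℓ hV hM d (alphaGen L (F1 M) ℓ (genBC L M i))
        = alphaGen L (F1 M) ℓ (diamondAut L M d (genBC L M i))
      rw [alphaGen_genBC, liftAutBC_genBC2, diamondAut_genBC L M hV hM, alphaGen_genBC]
      rfl
  exact RingHom.congr_fun key x

theorem liftAutBC_betaGen (hV : VFunStatement) (hM : 3 ≤ M) (d : (ZMod M)ˣ)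
    (x : laurentBaseChange L (F1 M)) :
    liftAutBC L M ℓ hV hM d (betaGen L (F1 M) ℓ x)
      = betaGen L (F1 M) ℓ (diamondAut L M d x) := by
  have key : ((liftAutBC L M ℓ hV hM d).toAlgHom.toRingHom.comp (betaGen L (F1 M) ℓ).toRingHom)
      = ((betaGen L (F1 M) ℓ).toRingHom.comp (diamondAut L M d).toAlgHom.toRingHom) := by
    refine ringHom_ext_F1 L M _ _ (fun a => ?_) (fun i => ?_)
    · show liftAutBC L M ℓ hV hM d (betaGen L (F1 M) ℓ (algebraMap L _ a))
        = betaGen L (F1 M) ℓ (diamondAut L M d (algebraMap L _ a))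
      rw [AlgHom.commutes, AlgEquiv.commutes, AlgEquiv.commutes, AlgHom.commutes]
    · show liftAutBC L M ℓ hV hM d (betaGen L (F1 M) ℓ (genBC L M i))
        = betaGen L (F1 M) ℓ (diamondAut L M d (genBC L M i))
      rw [betaGen_genBC, liftAutBC_genBC2, diamondAut_genBC L M hV hM, betaGen_genBC]
      rfl
  exact RingHom.congr_fun key x

/-- **The diamond lift.**  The diamond automorphism `aut d` of `ℚ̄ · F1 M` extends to an
automorphism of the field of the Hecke correspondence commuting with both degeneracy maps. -/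
theorem diamondLift (hV : VFunStatement) : DiamondLiftStatement := by
  intro M _ hM ℓ _ _ _ d
  exact ⟨liftAutBC (AlgebraicClosure ℚ) M ℓ hV (by omega) d,
    fun x => liftAutBC_alphaGen (AlgebraicClosure ℚ) M ℓ hV (by omega) d x,
    fun x => liftAutBC_betaGen (AlgebraicClosure ℚ) M ℓ hV (by omega) d x⟩

/-- Galois and Hecke operators on the torsion of `J₁(M)` commute. -/
theorem j1GalHecke (hV : VFunStatement) : J1GalHeckeStatement :=
  j1GalHecke_of_lift (diamondLift hV)

end Fermat.Agent.H80.ES1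

end
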