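/-
P-DS / P-ES1 (helper80): division for the relation "the holomorphic function `h` on `ℍ` has the
Laurent `q`-expansion `x`".

`laurentRel_of_mul_eq` : if `G` is holomorphic on `ℍ`, `G * H = K`, `H` has the expansion `y ≠ 0`
and `K` has the expansion `x`, then `G` has the expansion `x / y`.
-/
import Fermat.Agent.H44.Gen11.Rel
import Fermat.Agent.H77.EsAGrow
import Fermat.Agent.H32.EsAMF

set_option autoImplicit false
set_option linter.unusedSectionVars false

noncomputable section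

open UpperHalfPlane
open scoped MatrixGroups Manifold Real

namespace Fermat.Agent.H80.ES1

open Fermat.Agent.H44

theorem ofComplex_add_one_eq (z : ℍ) :
    ofComplex ((z : ℂ) + ((1 : ℝ) : ℂ)) = ModularGroup.T • z := by
  have hw' : 0 < ((z : ℂ) + ((1 : ℝ) : ℂ)).im := by simpa using z.im_pos
  apply UpperHalfPlane.ext
  rw [UpperHalfPlane.modular_T_smul, UpperHalfPlane.coe_vadd, ofComplex_apply_of_im_pos hw']
  simp [add_comm]

/-- A function with a Laurent `q`-expansion is invariant under `z ↦ z + 1`. -/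
theorem laurentRel_T_smul {h : ℍ → ℂ} {x : LaurentSeries ℂ} (H : LaurentRel h x) (z : ℍ) :
    h (ModularGroup.T • z) = h z := by
  obtain ⟨m, hm⟩ := H
  have h1 := hm.1.1 (z : ℂ)
  have h2 := (isNiceFn_qqFn.pow m).1 (z : ℂ)
  simp only [Function.comp_apply, Pi.mul_apply, ofComplex_add_one_eq, ofComplex_apply] at h1 h2
  rw [h2] at h1
  exact mul_left_cancel₀ (qqFn_pow_ne_zero m z) h1

/-- A function with a Laurent `q`-expansion has at most exponential growth at `i∞`. -/
theorem laurentRel_exists_bound {h : ℍ → ℂ} {x : LaurentSeries ℂ} (H : LaurentRel h x) :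
    ∃ (M : ℕ) (C Y : ℝ), ∀ z : ℍ, Y ≤ z.im → ‖h z‖ ≤ C * Real.exp (2 * π * M * z.im) := by
  obtain ⟨m, hm⟩ := H
  have hb := hm.1.2.2
  rw [UpperHalfPlane.isBoundedAtImInfty_iff] at hb
  obtain ⟨B, Y, hB⟩ := hb
  refine ⟨m, B, Y, fun z hz => ?_⟩
  have h1 := hB z hz
  rw [Pi.mul_apply, Pi.pow_apply, norm_mul, norm_pow, Fermat.Agent.H32.norm_qqFn] at h1
  have h2 : Real.exp (-(2 * π * z.im)) ^ m * Real.exp (2 * π * m * z.im) = 1 := by
    rw [← Real.exp_nat_mul, ← Real.exp_add]
    have : (m : ℝ) * -(2 * π * z.im) + 2 * π * m * z.im = 0 := by ring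
    rw [this, Real.exp_zero]
  calc ‖h z‖ = (Real.exp (-(2 * π * z.im)) ^ m * Real.exp (2 * π * m * z.im)) * ‖h z‖ := by
        rw [h2, one_mul]
    _ = (Real.exp (-(2 * π * z.im)) ^ m * ‖h z‖) * Real.exp (2 * π * m * z.im) := by ring
    _ ≤ B * Real.exp (2 * π * m * z.im) :=
        mul_le_mul_of_nonneg_right h1 (Real.exp_pos _).le

theorem laurentRel_ne_zero {h : ℍ → ℂ} {x : LaurentSeries ℂ} (H : LaurentRel h x)
    (hx : x ≠ 0) : h ≠ 0 := by
  intro h0
  rw [h0] at H
  exact hx (H.unique_right laurentRel_zero)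

/-- **Division.**  If `G` is holomorphic on `ℍ` and `G * H = K`, where `H` has the Laurent
expansion `y ≠ 0` and `K` has the Laurent expansion `x = w * y`, then `G` has the Laurent
expansion `w`. -/
theorem laurentRel_of_mul_eq {G H K : ℍ → ℂ} {x y w : LaurentSeries ℂ} (hG : MDiff G)
    (hH : LaurentRel H y) (hK : LaurentRel K x) (hy : y ≠ 0)
    (hmul : ∀ z : ℍ, G z * H z = K z) (hw : w * y = x) : LaurentRel G w := by
  have hH0 : H ≠ 0 := laurentRel_ne_zero hH hy
  have hHd : MDiff H := hH.mdifferentiable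
  -- `G` is invariant under `z ↦ z + 1`
  have hGT : ∀ z : ℍ, G (ModularGroup.T • z) = G z := by
    have hdiff : (fun z : ℍ => G (ModularGroup.T • z) - G z) = 0 := by
      refine Fermat.Agent.H77.esg_eq_zero_of_mul_eq_zero
        ((Fermat.Agent.H77.esg_mdiff_comp_smul hG ModularGroup.T).sub hG) hHd (fun z => ?_) hH0
      have e1 : G (ModularGroup.T • z) * H z = K z := by
        rw [← laurentRel_T_smul hH z, hmul, laurentRel_T_smul hK z]
      rw [sub_mul, e1, hmul z, sub_self]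
    intro z
    exact sub_eq_zero.mp (congrFun hdiff z)
  -- growth
  obtain ⟨M₁, C₁, Y₁, h₁⟩ := laurentRel_exists_bound hK
  obtain ⟨M₂, C₂, Y₂, h₂⟩ := laurentRel_exists_bound hH
  obtain ⟨M', c, Y', hc, hlow⟩ := Fermat.Agent.H77.esg_lower_bound 1 H hHd
    (fun z => by rw [pow_one]; exact laurentRel_T_smul hH z) M₂ C₂ Y₂ h₂ hH0
  have hgr : Fermat.Agent.H85.ExpGrowth G := by
    refine Fermat.Agent.H32.expGrowth_of_bound
      ⟨M₁ + M', |C₁| / c, max Y₁ Y', fun z hz => ?_⟩
    have hz1 : Y₁ ≤ z.im := le_trans (le_max_left _ _) hz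
    have hz2 : Y' ≤ z.im := le_trans (le_max_right _ _) hz
    have hR := h₁ z hz1
    have hS := hlow z hz2
    have hm : ‖G z‖ * ‖H z‖ = ‖K z‖ := by
      rw [← norm_mul, hmul]
    have hE' : 0 < Real.exp (-(2 * π * M' * z.im)) := Real.exp_pos _
    have hE₁ : 0 < Real.exp (2 * π * M₁ * z.im) := Real.exp_pos _
    have hcE : 0 < c * Real.exp (-(2 * π * M' * z.im)) := mul_pos hc hE'
    have hkey : ‖G z‖ * (c * Real.exp (-(2 * π * M' * z.im)))
        ≤ |C₁| * Real.exp (2 * π * M₁ * z.im) :=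
      calc ‖G z‖ * (c * Real.exp (-(2 * π * M' * z.im)))
          ≤ ‖G z‖ * ‖H z‖ := mul_le_mul_of_nonneg_left hS (norm_nonneg _)
        _ = ‖K z‖ := hm
        _ ≤ C₁ * Real.exp (2 * π * M₁ * z.im) := hR
        _ ≤ |C₁| * Real.exp (2 * π * M₁ * z.im) :=
            mul_le_mul_of_nonneg_right (le_abs_self _) hE₁.le
    have hsplit : Real.exp (2 * π * ((M₁ + M' : ℕ) : ℝ) * z.im)
        = Real.exp (2 * π * M₁ * z.im) / Real.exp (-(2 * π * M' * z.im)) := by
      rw [← Real.exp_sub]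
      congr 1
      push_cast
      ring
    rw [hsplit, div_mul_div_comm, le_div_iff₀ hcE]
    exact hkey
  -- `G` has a Laurent expansion
  obtain ⟨x', hx'⟩ := Fermat.Agent.H32.exists_laurentRel_of_T_invariant hG hGT hgr
  have hGH : G * H = K := funext hmul
  have h3 : LaurentRel K (x' * y) := by
    rw [← hGH]
    exact hx'.mul hH
  have h4 : x' * y = w * y := (h3.unique_right hK).trans hw.symm
  have h5 : x' = w := mul_right_cancel₀ hy h4
  rw [← h5]
  exact hx'

end Fermat.Agent.H80.ES1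

end
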