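/-
P-DS / P-ES1 / ES1-C, row ES1-C-DREP (helper80): the diamond automorphisms in terms of
representing functions.

`theorem diamondRep1 (hV : VFunStatement) : Fermat.Agent.H21.Es1C.DiamondRep1Statement` :
if the holomorphic function `F` represents `f ∈ F1C M`, then `z ↦ F (g z)`, `g = diamRep M d`,
represents `aut d⁻¹ f`.
-/
import Fermat.Agent.H80.ES1.LaurentDiv
import Fermat.Agent.H80.ES1.DiamondLift
import Fermat.Agent.H21.Es1C.Coh1
import Fermat.Agent.H32.ES1.Model1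

set_option autoImplicit false
set_option linter.unusedSectionVars false

noncomputable section

open UpperHalfPlane ModularCurve CongruenceSubgroup
open scoped MatrixGroups Manifold

namespace Fermat.Agent.H80.ES1

open Fermat.Agent.H29.ES1 Fermat.Agent.H44 Fermat.Agent.H23 Fermat.Agent.H7.DS
open Fermat.Agent.H21.Es1C

variable (M : ℕ) [NeZero M]

/-- An element of `Γ₀(M)` with lower right entry `≡ d` has upper left entry `≡ d⁻¹`. -/
theorem upperLeft_of_lowerRight (g : SL(2, ℤ)) (hg : g ∈ Gamma0 M) (d : (ZMod M)ˣ)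
    (hd : lr M g = (d : ZMod M)) :
    (((g : Matrix (Fin 2) (Fin 2) ℤ) 0 0 : ℤ) : ZMod M) = ((d⁻¹ : (ZMod M)ˣ) : ZMod M) := by
  have hdet : g 0 0 * g 1 1 - g 0 1 * g 1 0 = 1 := by
    have := g.det_coe
    rwa [Matrix.det_fin_two] at this
  have hc : ((g 1 0 : ℤ) : ZMod M) = 0 := Gamma0_mem.mp hg
  have h1 := congrArg (Int.cast : ℤ → ZMod M) hdet
  push_cast at h1
  rw [hc, mul_zero, sub_zero] at h1
  have hd' : ((g 1 1 : ℤ) : ZMod M) = (d : ZMod M) := hd
  rw [hd'] at h1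
  calc ((g 0 0 : ℤ) : ZMod M)
      = ((g 0 0 : ℤ) : ZMod M) * ((d : ZMod M) * ((d⁻¹ : (ZMod M)ˣ) : ZMod M)) := by
        rw [Units.mul_inv, mul_one]
    _ = ((d⁻¹ : (ZMod M)ˣ) : ZMod M) := by rw [← mul_assoc, h1, one_mul]

/-- The elements of `R1 M` are represented by functions compatible with the diamond
automorphisms. -/
theorem exists_rep_R1 (hV : VFunStatement) (hM : 3 ≤ M) (u : (ZMod M)ˣ) (g : SL(2, ℤ))
    (hg : g ∈ Gamma0 M)
    (hu : (((g : Matrix (Fin 2) (Fin 2) ℤ) 0 0 : ℤ) : ZMod M) = (u : ZMod M))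
    (r : ↥(F1C M)) (hr : r ∈ R1 M) :
    ∃ H : ℍ → ℂ, LaurentRel H (r : LaurentSeries ℂ) ∧
      LaurentRel (fun z => H (g • z)) ((diamondAut ℂ M u r : ↥(F1C M)) : LaurentSeries ℂ) := by
  have hgen : ∀ i : GenIdx M, ∃ H : ℍ → ℂ,
      LaurentRel H ((genBC ℂ M i : ↥(F1C M)) : LaurentSeries ℂ) ∧
      LaurentRel (fun z => H (g • z))
        ((diamondAut ℂ M u (genBC ℂ M i) : ↥(F1C M)) : LaurentSeries ℂ) := by
    intro i
    refine ⟨gensFun M i, laurentRel_gens M hV hM i, ?_⟩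
    have e1 : (fun z => gensFun M i (g • z)) = gensFun M (genPerm M u i) :=
      funext fun z => gensFun_smul_of_mem M hV hM u g hg hu i z
    rw [e1, diamondAut_genBC ℂ M hV hM u i]
    exact laurentRel_gens M hV hM (genPerm M u i)
  unfold R1 at hr
  induction hr using Algebra.adjoin_induction with
  | mem x hx =>
    rcases hx with ⟨d', hd'0, hd', rfl⟩ | ⟨a, rfl⟩
    · exact hgen (Sum.inl ⟨d', hd'⟩)
    · exact hgen (Sum.inr a)
  | algebraMap c =>
    refine ⟨fun _ => c, ?_, ?_⟩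
    · have e : ((algebraMap ℂ ↥(F1C M) c : ↥(F1C M)) : LaurentSeries ℂ) = HahnSeries.C c :=
        Fermat.Agent.H32.algebraMap_laurent_eq_C c
      rw [e]
      exact laurentRel_const c
    · have e : ((diamondAut ℂ M u (algebraMap ℂ ↥(F1C M) c) : ↥(F1C M)) : LaurentSeries ℂ)
          = HahnSeries.C c := by
        rw [AlgEquiv.commutes]
        exact Fermat.Agent.H32.algebraMap_laurent_eq_C c
      rw [e]
      exact laurentRel_const c
  | add x y _ _ hx hy =>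
    obtain ⟨Hx, hx1, hx2⟩ := hx
    obtain ⟨Hy, hy1, hy2⟩ := hy
    refine ⟨Hx + Hy, hx1.add hy1, ?_⟩
    have e : ((diamondAut ℂ M u (x + y) : ↥(F1C M)) : LaurentSeries ℂ)
        = ((diamondAut ℂ M u x : ↥(F1C M)) : LaurentSeries ℂ)
          + ((diamondAut ℂ M u y : ↥(F1C M)) : LaurentSeries ℂ) :=
      congrArg Subtype.val (map_add (diamondAut ℂ M u) x y)
    rw [e]
    exact hx2.add hy2
  | mul x y _ _ hx hy =>
    obtain ⟨Hx, hx1, hx2⟩ := hx
    obtain ⟨Hy, hy1, hy2⟩ := hy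
    refine ⟨Hx * Hy, hx1.mul hy1, ?_⟩
    have e : ((diamondAut ℂ M u (x * y) : ↥(F1C M)) : LaurentSeries ℂ)
        = ((diamondAut ℂ M u x : ↥(F1C M)) : LaurentSeries ℂ)
          * ((diamondAut ℂ M u y : ↥(F1C M)) : LaurentSeries ℂ) :=
      congrArg Subtype.val (map_mul (diamondAut ℂ M u) x y)
    rw [e]
    exact hx2.mul hy2

/-- **ES1-C-DREP.**  If `F` represents `f ∈ F1C M` then `F ∘ g`, `g = diamRep M d`, represents
`aut d⁻¹ f`. -/
theorem diamondRep1 (hV : VFunStatement) : DiamondRep1Statement := by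
  intro M _ hM d f F hF hrep
  have hM3 : 3 ≤ M := by omega
  have hg : diamRep M (d : ZMod M) ∈ Gamma0 M := diamRep_mem M _
  have hu := upperLeft_of_lowerRight M (diamRep M (d : ZMod M)) hg d (lr_diamRep M d)
  obtain ⟨r, s, hr, hs, hs0, hfs⟩ := Fermat.Agent.H32.ES1M.exists_frac1 M f
  obtain ⟨Hr, hHr, hHr'⟩ := exists_rep_R1 M hV hM3 d⁻¹ _ hg hu r hr
  obtain ⟨Hs, hHs, hHs'⟩ := exists_rep_R1 M hV hM3 d⁻¹ _ hg hu s hs
  have hrep' : LaurentRel F (f : LaurentSeries ℂ) := hrep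
  have hmul : F * Hs = Hr := by
    refine (hrep'.mul hHs).unique_left ?_
    have e : (f : LaurentSeries ℂ) * (s : LaurentSeries ℂ) = (r : LaurentSeries ℂ) :=
      congrArg Subtype.val hfs
    rw [e]
    exact hHr
  have hσs0 : ((diamondAut ℂ M d⁻¹ s : ↥(F1C M)) : LaurentSeries ℂ) ≠ 0 := by
    intro h0
    have h1 : diamondAut ℂ M d⁻¹ s = 0 := Subtype.ext h0
    exact hs0 ((map_eq_zero_iff _ (diamondAut ℂ M d⁻¹).injective).mp h1)
  have hw : ((diamondAut ℂ M d⁻¹ f : ↥(F1C M)) : LaurentSeries ℂ)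
      * ((diamondAut ℂ M d⁻¹ s : ↥(F1C M)) : LaurentSeries ℂ)
      = ((diamondAut ℂ M d⁻¹ r : ↥(F1C M)) : LaurentSeries ℂ) := by
    have h1 : diamondAut ℂ M d⁻¹ f * diamondAut ℂ M d⁻¹ s = diamondAut ℂ M d⁻¹ r := by
      rw [← hfs]
      exact (map_mul (diamondAut ℂ M d⁻¹) f s).symm
    exact congrArg Subtype.val h1
  exact laurentRel_of_mul_eq (G := fun z => F (diamRep M (d : ZMod M) • z))
    (Fermat.Agent.H77.esg_mdiff_comp_smul hF _) hHs' hHr' hσs0
    (fun z => congrFun hmul (diamRep M (d : ZMod M) • z)) hw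

end Fermat.Agent.H80.ES1

end
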